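import Fermat.Agent.RIB.TWLoc.Ord
import Fermat.Agent.ML.Main.Ctx
import Fermat.Agent.ML.Low.Rho.Main

/-!
# ML / Low : port of `Fermat.Agent.RIB.TWLoc.Ord` from `RIB.ECtx` to `ML.MCtx`

Only the theorems with an `ECtx` argument are restated (same names, namespace `Fermat.Agent.ML.Low`);
the auxiliary lemmas are those of the RIB file.
-/
set_option autoImplicit false
set_option linter.unusedSectionVars false

noncomputable section

open AlgebraicCurve ModularCurve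

namespace Fermat.Agent.ML.Low

open Fermat.Agent.RIB Fermat.Agent.RIB.TWLoc

open Fermat.Agent.GAL Fermat.Agent.GAL.PC Fermat.Agent.TW.TR

local notation "Qbar" => AlgebraicClosure ℚ
local notation "GQ" => (AlgebraicClosure ℚ ≃ₐ[ℚ] AlgebraicClosure ℚ)
local notation "M₂" => Matrix (Fin 2) (Fin 2)

/-- **(RHO-ord)** -/
theorem rho_ord84 {p : ℕ} [Fact p.Prime] {T : Finset ℕ} {θ : ℕ → ℤ} {rbar0 : GQ →* M₂ (ZMod p)}
    (EC : MCtx p T θ rbar0) (S : Finset ℕ) (hTS : T ⊆ S) (N : ℕ) [NeZero N]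
    (hS : ∀ r : ℕ, r.Prime → r ∣ N * p → r ∈ S) {l ν : ℕ} (hl : l.Prime) (hlT : l ∉ T)
    (hν : 1 ≤ ν) (hdvd : p ^ ν ∣ l - 1) (hex : ¬ p ^ (ν + 1) ∣ l - 1)
    (disc : IsCoprime (p : ℤ) (θ l ^ 2 - 4))
    {A : ValuationSubring Qbar} (hA : A.LiesOverPrime l) :
    ∀ τ ∈ A.inertiaSubgroupIn ℚ, ∀ x ∈ thetaPart N p (↑S : Set ℕ) θ, τ ^ (p ^ ν) • x = x := by
  intro τ hτ x hx
  have hp : p.Prime := Fact.out
  obtain ⟨k0, hk0⟩ := hx.1
  -- `k = k0 + 1 ≥ 1`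
  have hxk : x ∈ XT N p (k0 + 1) (↑S : Set ℕ) θ :=
    ⟨hx, by rw [pow_succ, mul_nsmul, hk0, smul_zero]⟩
  have : Finite ↥(XT N p (k0 + 1) (↑S : Set ℕ) θ) := finite_XT hp.ne_zero
  obtain ⟨σ₀, τ₀, u0, hu0, hnf⟩ := EC.nf
  obtain ⟨R, iC, iA, iM, iT, iF, t, ρ, Φ, h1, h2, h3, h4, h5, h6, h7, -, h8⟩ :=
    Rho.exists_rho_tors (V := ↥(XT N p (k0 + 1) (↑S : Set ℕ) θ)) (m := p ^ (k0 + 1))
      (XT N p (k0 + 1) (↑S : Set ℕ) θ).subtype
      Subtype.val_injective (fun _ _ => rfl) hp (j := k0 + 1) rfl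
      (dvd_pow_self p (Nat.succ_ne_zero k0)) S hS θ
      (fun r hr v => v.2.1.2 r (fun h => hr (Finset.mem_coe.1 h)))
      rbar0 EC.cont (fun r hr hrS => EC.frob r hr (fun h => hrS (hTS h)))
      (inv_mul_cancel₀ (MCtx.two_ne_zero EC)) complexConjugation_mul_self
      (Rho.chiM_complexConjugation (p ^ (k0 + 1))) hu0
  obtain ⟨φ, hφ⟩ := S54.exists_isFrobeniusAt_of_liesOverPrime hl A hA
  have hl2 : l ≠ 2 := fun h => hlT (h ▸ EC.two_mem)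
  have hlp : l ≠ p := fun h => hlT (h ▸ EC.p_mem)
  obtain ⟨c, hc⟩ := hdvd
  have hlv : l = p ^ ν * c + 1 := by
    have := hl.one_lt
    omega
  have hpc : ¬ p ∣ c := by
    rintro ⟨d, rfl⟩
    exact hex ⟨d, by rw [hc, pow_succ, mul_assoc]⟩
  have hdisc : (rbar0 φ).trace ^ 2 - 4 * (rbar0 φ).det ≠ 0 := by
    obtain ⟨e1, e2⟩ := EC.frob l hl hlT A hA φ hφ
    have hl1 : ((l : ℕ) : ZMod p) = 1 := by
      rw [hlv]
      push_cast
      obtain ⟨w, rfl⟩ := Nat.exists_eq_succ_of_ne_zero (by omega : ν ≠ 0)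
      rw [pow_succ, ZMod.natCast_self]
      ring
    rw [e1, e2, hl1, mul_one]
    intro h4
    have h5 : (((θ l ^ 2 - 4 : ℤ)) : ZMod p) = 0 := by
      push_cast
      exact h4
    have h6 := (ZMod.intCast_zmod_eq_zero_iff_dvd _ p).1 h5
    exact (Prime.coprime_iff_not_dvd (Nat.prime_iff_prime_int.1 hp)).1 disc h6
  have hpnil : IsNilpotent ((p : ℕ) : R) := by
    refine ⟨k0 + 1, ?_⟩
    have e : ((p : ℕ) : R) ^ (k0 + 1) =
        algebraMap (ZMod (p ^ (k0 + 1))) R (((p ^ (k0 + 1) : ℕ)) : ZMod (p ^ (k0 + 1))) := by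
      rw [map_natCast]
      push_cast
      rfl
    rw [e, ZMod.natCast_self, map_zero]
  obtain ⟨F, hF1, hF2⟩ := exists_level_torsion N (p ^ (k0 + 1)) (pow_ne_zero _ hp.ne_zero)
  have key := ord_abs (p := p) (V := ↥(XT N p (k0 + 1) (↑S : Set ℕ) θ)) ρ Φ h6 h7 hpnil rbar0
    (fun Q _ κ ψ hκ g => by rw [(h8 Q κ ψ hκ g).2, ← hnf g])
    ⟨F, hF1, fun σ hσ v => Subtype.ext (hF2 σ hσ v.1 v.2.2)⟩
    hl hlp hlv hpc hν hA (EC.unramT l hl hlT A hA) hφ hdisc hτ ⟨x, hxk⟩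
  exact congrArg Subtype.val key

end Fermat.Agent.ML.Low
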